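import Fermat.Agent.Carayol.Connect.Chart
import Mathlib.Algebra.BigOperators.Field

/-!
# Approximate idempotents and bounded denominators on the charts

Approximate idempotents lift modulo every power of `δ`, uniquely on the overlap.  For a fixed
family the combinations with coefficients in `A[z]` are, up to elements whose poles lie at values
of `z` outside `A`, combinations with coefficients in `A` of finitely many elements.
-/

set_option autoImplicit false

noncomputable section

namespace FA.Carayol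

open Polynomial

variable {K : Type*} [Field K] {E : Type*} [Field E] [Algebra (RatFunc K) E]
  {A : ValuationSubring K} {z : RatFunc K}

/-- **Approximate idempotents lift.** -/
theorem exists_lift_idem {δ : A} {e₀ b : E} (he : IntC A z e₀) (hb : IntC A z b)
    (h : e₀ * e₀ - e₀ = cst (δ : K) * b) (k : ℕ) :
    ∃ e, IntC A z e ∧ (∃ c, IntC A z c ∧ e - e₀ = cst (δ : K) * c) ∧
      ∃ c, IntC A z c ∧ e * e - e = cst (δ : K) ^ (k + 1) * c := by
  induction k with
  | zero =>
    exact ⟨e₀, he, ⟨0, intC_zero, by rw [sub_self, mul_zero]⟩, b, hb, by rw [h, pow_one]⟩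
  | succ k ih =>
    obtain ⟨e, hei, ⟨c, hc, hce⟩, d, hd, hde⟩ := ih
    set t : E := cst (δ : K)
    have hδi : IntC A z t := intC_cst δ
    have hn : ∀ n : ℕ, IntC A z (n : E) := fun n => by
      rw [← map_natCast (chartHom (E := E) A z)]; exact intC_hom _
    refine ⟨(3 : ℕ) * (e * e) - (2 : ℕ) * (e * e * e),
      ((hn 3).mul (hei.mul hei)).sub ((hn 2).mul ((hei.mul hei).mul hei)),
      ⟨c + t ^ k * d * (1 - (2 : ℕ) * e),
        hc.add (((hδi.pow k).mul hd).mul (intC_one.sub ((hn 2).mul hei))), ?_⟩,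
      t ^ k * (d * d) * ((4 : ℕ) * (e * e) - (4 : ℕ) * e - (3 : ℕ)),
      ((hδi.pow k).mul (hd.mul hd)).mul
        ((((hn 4).mul (hei.mul hei)).sub ((hn 4).mul hei)).sub (hn 3)), ?_⟩
    · linear_combination hce + (1 - 2 * e) * hde
    · linear_combination (4 * (e * e) - 4 * e - 3) * ((e * e - e) + t ^ (k + 1) * d) * hde

/-- Integrality on the overlap of the charts. -/
def Ov (A : ValuationSubring K) (b : E) : Prop :=
  ∃ m : ℕ, IntC A RatFunc.X (algebraMap (RatFunc K) E RatFunc.X ^ m * b)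

theorem ov_of_intC {b : E} (h : IntC A RatFunc.X b) : Ov A b :=
  ⟨0, by rwa [pow_zero, one_mul]⟩

theorem ov_of_intC_inv {b : E} (h : IntC A RatFunc.X⁻¹ b) : Ov A b := by
  obtain ⟨N, hN⟩ := h.exists_inv_pow (Or.inr rfl)
  rw [inv_inv] at hN
  exact ⟨N, hN⟩

theorem Ov.mul {a b : E} (ha : Ov A a) (hb : Ov A b) : Ov A (a * b) := by
  obtain ⟨m, hm⟩ := ha
  obtain ⟨n, hn⟩ := hb
  refine ⟨m + n, ?_⟩
  convert hm.mul hn using 1
  ring

theorem Ov.add {a b : E} (ha : Ov A a) (hb : Ov A b) : Ov A (a + b) := by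
  obtain ⟨m, hm⟩ := ha
  obtain ⟨n, hn⟩ := hb
  refine ⟨m + n, ?_⟩
  convert ((intC_coord_pow n).mul hm).add ((intC_coord_pow m).mul hn) using 1
  ring

theorem Ov.neg {a : E} (ha : Ov A a) : Ov A (-a) := by
  obtain ⟨m, hm⟩ := ha
  exact ⟨m, by rw [mul_neg]; exact hm.neg⟩

theorem Ov.sub {a b : E} (ha : Ov A a) (hb : Ov A b) : Ov A (a - b) := by
  rw [sub_eq_add_neg]; exact ha.add hb.neg

theorem Ov.pow {a : E} (ha : Ov A a) : ∀ n : ℕ, Ov A (a ^ n)
  | 0 => by rw [pow_zero]; exact ov_of_intC intC_one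
  | n + 1 => by rw [pow_succ]; exact (ha.pow n).mul ha

theorem ov_cst (a : A) : Ov A (cst (E := E) (a : K)) := ov_of_intC (intC_cst a)

theorem ov_natCast (n : ℕ) : Ov A (n : E) :=
  ov_of_intC (by rw [← map_natCast (chartHom (E := E) A RatFunc.X)]; exact intC_hom _)

/-- **Approximate idempotents congruent modulo `δ` are congruent modulo `δ ^ (k + 1)`.** -/
theorem ov_idem_unique {δ : A} {e e' a a' c : E} (he : Ov A e) (he' : Ov A e') (ha : Ov A a)
    (ha' : Ov A a') (hc : Ov A c) {k : ℕ} (h : e * e - e = cst (δ : K) ^ (k + 1) * a)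
    (h' : e' * e' - e' = cst (δ : K) ^ (k + 1) * a') (hee : e - e' = cst (δ : K) * c) :
    ∃ c', Ov A c' ∧ e - e' = cst (δ : K) ^ (k + 1) * c' := by
  set t : E := cst (δ : K)
  set s : E := (e + 1) * a - (e' + 1) * a' - (3 : ℕ) * (e' * a - e * a') with hs
  have hov1 : Ov A (1 : E) := ov_of_intC intC_one
  have hsi : Ov A s :=
    (((he.add hov1).mul ha).sub ((he'.add hov1).mul ha')).sub
      ((ov_natCast 3).mul ((he'.mul ha).sub (he.mul ha')))
  have hd : e - e' = (e - e') ^ 3 - t ^ (k + 1) * s := by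
    rw [hs]
    push_cast
    linear_combination -(e + 1) * h + (e' + 1) * h' + 3 * (e' * h - e * h')
  suffices H : ∀ i ≤ k, ∃ c', Ov A c' ∧ e - e' = t ^ (i + 1) * c' from H k le_rfl
  intro i
  induction i with
  | zero => exact fun _ => ⟨c, hc, by rw [hee, pow_one]⟩
  | succ i ih =>
    intro hi
    obtain ⟨c', hc', he''⟩ := ih (by omega)
    refine ⟨t ^ (2 * i + 1) * c' ^ 3 - t ^ (k - i - 1) * s,
      (((ov_cst δ).pow _).mul (hc'.pow 3)).sub (((ov_cst δ).pow _).mul hsi), ?_⟩
    rw [hd, he'', show k + 1 = (i + 1 + 1) + (k - i - 1) by omega, pow_add]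
    ring

/-- A nonzero polynomial over `A` is a constant times one with a unit coefficient. -/
theorem exists_primitive {P : A[X]} (hP : P ≠ 0) :
    ∃ (c : A) (P₀ : A[X]), c ≠ 0 ∧ P = C c * P₀ ∧ ∃ i, IsUnit (P₀.coeff i) := by
  classical
  obtain ⟨i, hi, hmax⟩ := P.support.exists_max_image (fun j => A.valuation (P.coeff j : K))
    (support_nonempty.mpr hP)
  have hc0 : P.coeff i ≠ 0 := mem_support_iff.mp hi
  have hc0' : ((P.coeff i : A) : K) ≠ 0 := fun h => hc0 (Subtype.ext h)
  have hdvd : ∀ j, P.coeff i ∣ P.coeff j := fun j => by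
    by_cases hj : j ∈ P.support
    · have hle : (P.coeff j : K) / (P.coeff i : K) ∈ A := by
        rw [← A.valuation_le_one_iff, map_div₀]
        exact div_le_one_of_le₀ (hmax j hj) zero_le
      exact ⟨⟨_, hle⟩, Subtype.ext (by
        show (P.coeff j : K) = (P.coeff i : K) * ((P.coeff j : K) / (P.coeff i : K))
        rw [mul_div_cancel₀ _ hc0'])⟩
    · rw [notMem_support_iff.mp hj]; exact dvd_zero _
  obtain ⟨P₀, hP₀⟩ := (C_dvd_iff_dvd_coeff _ _).mpr hdvd
  refine ⟨P.coeff i, P₀, hc0, hP₀, i, ?_⟩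
  have h := congrArg (fun Q : A[X] => Q.coeff i) hP₀
  simp only [coeff_C_mul] at h
  rw [mul_left_cancel₀ hc0 (h.symm.trans (mul_one _).symm)]
  exact isUnit_one

/-- Evaluation of a polynomial over `K`. -/
def kHom (z : RatFunc K) : K[X] →+* E :=
  (algebraMap (RatFunc K) E).comp (aeval z).toRingHom

theorem kHom_map (P : A[X]) : kHom (E := E) z (P.map A.subtype) = chartHom A z P := by
  rw [chartHom, RingHom.comp_apply, evC_eq_aeval]; rfl

theorem kHom_X : kHom (E := E) z X = algebraMap (RatFunc K) E z := by simp [kHom]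

theorem kHom_C (a : K) : kHom (E := E) z (C a) = cst a := by
  simp [kHom, cst]

theorem intC_top_kHom (p : K[X]) : IntC (⊤ : ValuationSubring K) z (kHom (E := E) z p) := by
  obtain ⟨P, rfl⟩ := Polynomial.map_surjective (⊤ : ValuationSubring K).subtype
    (fun a => ⟨⟨a, trivial⟩, rfl⟩) p
  rw [kHom_map]
  exact intC_hom _

theorem IntC.top {b : E} (h : IntC A z b) : IntC (⊤ : ValuationSubring K) z b := h.mono le_top

theorem IntC.coord_pow_mul {b : E} (h : IntC A z b) {N M : ℕ} (hNM : N ≤ M)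
    {w : E} (hw : b = algebraMap (RatFunc K) E z ^ N * w) :
    IntC A z (algebraMap (RatFunc K) E z ^ M * w) := by
  convert (intC_coord_pow (A := A) (z := z) (M - N)).mul h using 1
  rw [hw, ← mul_assoc, ← pow_add, Nat.sub_add_cancel hNM]

/-- **Combinations of a family modulo poles outside `A`.** -/
theorem exists_span [IsAlgClosed K] (hz : IsCoord K z) {ι : Type*} [Fintype ι] (bs : ι → E)
    {D : A[X]} (hD : D ≠ 0) (hbs : ∀ i, IntC A z (chartHom (E := E) A z D * bs i)) :
    ∃ O : K[X], O ≠ 0 ∧ (∀ r : K, O.IsRoot r → r ∉ A) ∧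
      ∃ (d : ℕ) (S : ι → Fin d → E), ∀ U : ι → A[X], ∃ cf : ι → Fin d → A,
        IntC (⊤ : ValuationSubring K) z (kHom (E := E) z O ^ 2 *
          ((∑ i, chartHom (E := E) A z (U i) * bs i) - ∑ i, ∑ j, cst (cf i j : K) * S i j)) := by
  classical
  set Dm := D.map A.subtype with hDm
  have hDm0 : Dm ≠ 0 := (Polynomial.map_ne_zero_iff A.subtype_injective).mpr hD
  set rts := Dm.roots
  set inn : Multiset A := (rts.filter (· ∈ A)).attach.map fun r => (⟨r.1, (Multiset.mem_filter.mp r.2).2⟩ : A)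
  set M : A[X] := (inn.map fun r => X - C r).prod
  set O : K[X] := ((rts.filter (· ∉ A)).map fun r => X - C r).prod
  have hM : M.Monic := monic_multiset_prod_of_monic _ _ fun r _ => monic_X_sub_C r
  have hO0 : O ≠ 0 := (monic_multiset_prod_of_monic _ _ fun r _ => monic_X_sub_C r).ne_zero
  have hfac : Dm = C Dm.leadingCoeff * (M.map A.subtype * O) := by
    conv_lhs => rw [(IsAlgClosed.splits Dm).eq_prod_roots]
    congr 1
    conv_lhs => rw [show Dm.roots = rts from rfl, ← Multiset.filter_add_not (· ∈ A) rts, Multiset.map_add, Multiset.prod_add]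
    congr 1
    rw [Polynomial.map_multiset_prod, Multiset.map_map, Multiset.map_map]
    conv_lhs => rw [← Multiset.attach_map_val (rts.filter (· ∈ A)), Multiset.map_map]
    refine congrArg Multiset.prod (Multiset.map_congr rfl fun r _ => ?_)
    simp
  set T : A[X] := M * M
  have hT : T.Monic := hM.mul hM
  set d := T.natDegree
  set xE : E := algebraMap (RatFunc K) E z
  set DE : E := chartHom (E := E) A z D with hDE
  have hDE0 : DE ≠ 0 := hz.chartHom_ne_zero hD
  refine ⟨O, hO0, fun r hr => ?_, d, fun i j => xE ^ (j : ℕ) * bs i / DE, fun U => ?_⟩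
  · have : r ∈ O.roots := (mem_roots hO0).mpr hr
    rw [roots_multiset_prod_X_sub_C] at this
    exact (Multiset.mem_filter.mp this).2
  set rem : ι → A[X] := fun i => (D * U i) %ₘ T
  set quo : ι → A[X] := fun i => (D * U i) /ₘ T
  have hrem : ∀ i, rem i = ∑ j : Fin d, C ((rem i).coeff j) * X ^ (j : ℕ) := fun i => by
    rw [Fin.sum_univ_eq_sum_range (fun j => C ((rem i).coeff j) * X ^ j)]
    refine Polynomial.ext fun n => ?_
    rw [finsetSum_coeff]
    simp only [coeff_C_mul_X_pow, Finset.sum_ite_eq, Finset.mem_range]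
    split_ifs with hn
    · rfl
    · refine coeff_eq_zero_of_degree_lt ((degree_modByMonic_lt _ hT).trans_le ?_)
      rw [degree_eq_natDegree hT.ne_zero]
      exact_mod_cast (not_lt.mp hn)
  refine ⟨fun i j => (rem i).coeff j, ?_⟩
  have hkey : ∀ i, chartHom (E := E) A z (U i) * bs i -
      ∑ j : Fin d, cst ((rem i).coeff j : K) * (xE ^ (j : ℕ) * bs i / DE) =
      chartHom (E := E) A z T * chartHom (E := E) A z (quo i) * bs i / DE := fun i => by
    have h1 : ∑ j : Fin d, cst ((rem i).coeff j : K) * (xE ^ (j : ℕ) * bs i / DE) =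
        chartHom (E := E) A z (rem i) * bs i / DE := by
      conv_rhs => rw [hrem i]
      rw [map_sum, Finset.sum_mul, Finset.sum_div]
      refine Finset.sum_congr rfl fun j _ => ?_
      rw [map_mul, map_pow, chartHom_C, chartHom_X]
      ring
    have h2 := congrArg (chartHom (E := E) A z) (modByMonic_add_div (D * U i) T)
    rw [map_add, map_mul _ T] at h2
    have h3 := map_mul (chartHom (E := E) A z) D (U i)
    rw [h1, sub_eq_iff_eq_add, ← add_div, eq_div_iff hDE0]
    linear_combination -(bs i) * h2 - bs i * h3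
  rw [← Finset.sum_sub_distrib, Finset.sum_congr rfl fun i _ => hkey i, Finset.mul_sum]
  refine intC_sum fun i _ => ?_
  set lc : E := cst Dm.leadingCoeff with hlc
  have hlc0 : lc ≠ 0 := (_root_.map_ne_zero (cst (E := E))).mpr (leadingCoeff_ne_zero.mpr hDm0)
  have hME : DE = lc * (chartHom (E := E) A z M * kHom (E := E) z O) := by
    rw [hDE, ← kHom_map, ← hDm, hfac, map_mul, map_mul, kHom_C, kHom_map]
  rw [show kHom (E := E) z O ^ 2 * (chartHom (E := E) A z T * chartHom (E := E) A z (quo i) * bs i / DE) =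
    cst (Dm.leadingCoeff⁻¹ ^ 2) * chartHom (E := E) A z (quo i) * (DE * bs i) by
      rw [map_pow, map_inv₀, ← hlc, map_mul]
      have hM0 : chartHom (E := E) A z M ≠ 0 := hz.chartHom_ne_zero hM.ne_zero
      have hO0' : kHom (E := E) z O ≠ 0 := fun h => hDE0 (by rw [hME, h, mul_zero, mul_zero])
      rw [hME]
      field_simp]
  refine (IntC.mul ?_ (intC_hom _).top).mul (hbs i).top
  rw [← kHom_C (z := z)]
  exact intC_top_kHom _

/-- **Poles outside `A` on both charts cannot meet.** -/
theorem intC_top_of_two [IsAlgClosed K] (hz : IsCoord K z) {O O' : K[X]}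
    (hO : O ≠ 0) (hr : ∀ r : K, O.IsRoot r → r ∉ A) (hr' : ∀ r : K, O'.IsRoot r → r ∉ A) {u : E}
    (h : IntC (⊤ : ValuationSubring K) z (kHom (E := E) z O ^ 2 * u))
    (h' : IntC (⊤ : ValuationSubring K) z⁻¹ (kHom (E := E) z⁻¹ O' ^ 2 * u)) :
    IntC (⊤ : ValuationSubring K) z u := by
  classical
  obtain ⟨N, hN⟩ := h'.exists_inv_pow hz.inv
  rw [inv_inv] at hN
  set d := O'.natDegree
  set M := N + 2 * d
  have hM := (intC_coord_pow (A := (⊤ : ValuationSubring K)) (z := z) (E := E) (2 * d)).mul hN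
  have hz0 : z ≠ 0 := fun h0 => hz.transcendental (h0 ▸ isAlgebraic_zero)
  have hrefl : kHom (E := E) z (O'.reflect d) = algebraMap (RatFunc K) E z ^ d * kHom (E := E) z⁻¹ O' := by
    letI : Invertible z⁻¹ := invertibleOfNonzero (inv_ne_zero hz0)
    have e := eval₂_reflect_mul_pow (algebraMap K (RatFunc K)) z⁻¹ d O' le_rfl
    rw [invOf_eq_inv, inv_inv, ← aeval_def, ← aeval_def] at e
    simp only [kHom, RingHom.comp_apply, AlgHom.toRingHom_eq_coe, RingHom.coe_coe, ← map_pow, ← map_mul]
    congr 1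
    rw [← e, mul_comm, mul_assoc, ← mul_pow, inv_mul_cancel₀ hz0, one_pow, mul_one]
  set q : K[X] := X ^ N * O'.reflect d ^ 2
  have hq : IntC (⊤ : ValuationSubring K) z (kHom (E := E) z q * u) := by
    convert hM using 1
    rw [map_mul, map_pow, map_pow, kHom_X, hrefl, mul_pow, ← pow_mul]
    ring
  have hcop : IsCoprime (O ^ 2) q := by
    refine (Polynomial.isCoprime_iff_aeval_ne_zero_of_isAlgClosed K K _ _).mpr fun r => ?_
    by_contra hcon
    push Not at hcon
    obtain ⟨h1, h2⟩ := hcon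
    rw [map_pow, pow_eq_zero_iff two_ne_zero, aeval_def, Algebra.algebraMap_self, eval₂_id] at h1
    have hrA : r ∉ A := hr r h1
    have hr0 : r ≠ 0 := fun h0 => hrA (h0 ▸ A.zero_mem)
    rw [map_mul, map_pow, map_pow, aeval_X, mul_eq_zero, pow_eq_zero_iff two_ne_zero, aeval_def,
      Algebra.algebraMap_self, eval₂_id] at h2
    rcases h2 with h2 | h2
    · exact hr0 (eq_zero_of_pow_eq_zero h2)
    · letI : Invertible (r⁻¹ : K) := invertibleOfNonzero (inv_ne_zero hr0)
      have e := eval₂_reflect_mul_pow (RingHom.id K) (r⁻¹ : K) d O' le_rfl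
      rw [invOf_eq_inv, inv_inv, eval₂_id, eval₂_id, h2, zero_mul] at e
      rcases A.mem_or_inv_mem r with hm | hm
      · exact hrA hm
      · exact hr' _ e.symm hm
  obtain ⟨s, t, hst⟩ := hcop
  have hu : u = kHom (E := E) z s * (kHom (E := E) z O ^ 2 * u) + kHom (E := E) z t * (kHom (E := E) z q * u) := by
    have e := congrArg (kHom (E := E) z) hst
    rw [map_add, map_mul, map_mul, map_pow, map_one] at e
    linear_combination -u * e
  rw [hu]
  exact ((intC_top_kHom s).mul h).add ((intC_top_kHom t).mul hq)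

end FA.Carayol

end
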