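import Mathlib.RingTheory.Polynomial.IsIntegral
import Mathlib.RingTheory.Trace.Basic
import Mathlib.RingTheory.Valuation.ValuationSubring
import Mathlib.FieldTheory.RatFunc.AsPolynomial
import Mathlib.FieldTheory.IsAlgClosed.AlgebraicClosure
import Mathlib.FieldTheory.IsAlgClosed.Basic
import Mathlib.FieldTheory.Separable
import Mathlib.Algebra.Polynomial.Reverse
import Mathlib.RingTheory.Localization.Integral
import Mathlib.RingTheory.Valuation.LocalSubring

/-!
# The two charts of an extension of `K(X)` over a valuation ring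

`E` is a finite extension of `K(X)` and `A` a valuation ring of `K`.  The elements integral over
`A[z]`, `z = X` or `1/X`, have traces in `A[z]`; every element has a multiple by a polynomial in
`z` which is integral; an integral element times a power of `1/z` is integral on the other chart;
elements integral on both charts over `K` are constants.
-/

set_option autoImplicit false

noncomputable section

namespace FA.Carayol

open Polynomial

variable {K : Type*} [Field K] {E : Type*} [Field E] [Algebra (RatFunc K) E]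

variable (K) in
/-- The two admissible coordinates. -/
def IsCoord (z : RatFunc K) : Prop := z = RatFunc.X ∨ z = RatFunc.X⁻¹

/-- Evaluation of a polynomial with coefficients in `A` at a coordinate. -/
def evC (A : ValuationSubring K) (z : RatFunc K) : A[X] →+* RatFunc K :=
  eval₂RingHom (RatFunc.C.comp A.subtype) z

/-- The same, into `E`. -/
def chartHom (A : ValuationSubring K) (z : RatFunc K) : A[X] →+* E :=
  (algebraMap (RatFunc K) E).comp (evC A z)

/-- Integrality over `A[z]`. -/
def IntC (A : ValuationSubring K) (z : RatFunc K) (b : E) : Prop :=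
  (chartHom (E := E) A z).IsIntegralElem b

/-- A constant of `K` in `E`. -/
def cst : K →+* E := (algebraMap (RatFunc K) E).comp RatFunc.C

variable {A : ValuationSubring K} {z : RatFunc K}

theorem evC_X : evC A z X = z := by simp [evC]

theorem evC_C (a : A) : evC A z (C a) = RatFunc.C (a : K) := by simp [evC]

theorem chartHom_C (a : A) : chartHom (E := E) A z (C a) = cst (a : K) := by
  simp [chartHom, cst, evC_C]

theorem chartHom_X : chartHom (E := E) A z X = algebraMap (RatFunc K) E z := by
  simp [chartHom, evC_X]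

theorem intC_hom (P : A[X]) : IntC A z (chartHom (E := E) A z P) :=
  (chartHom (E := E) A z).isIntegralElem_map

theorem intC_cst (a : A) : IntC A z (cst (E := E) (a : K)) := by
  rw [← chartHom_C (z := z)]; exact intC_hom _

theorem intC_zero : IntC A z (0 : E) := by
  rw [← map_zero (chartHom (E := E) A z)]; exact intC_hom _

theorem intC_one : IntC A z (1 : E) := by
  rw [← map_one (chartHom (E := E) A z)]; exact intC_hom _

theorem intC_coord_pow (n : ℕ) : IntC A z (algebraMap (RatFunc K) E z ^ n) := by
  rw [← chartHom_X (A := A), ← map_pow]; exact intC_hom _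

theorem IntC.add {a b : E} (ha : IntC A z a) (hb : IntC A z b) : IntC A z (a + b) :=
  RingHom.IsIntegralElem.add _ ha hb

theorem IntC.mul {a b : E} (ha : IntC A z a) (hb : IntC A z b) : IntC A z (a * b) :=
  RingHom.IsIntegralElem.mul _ ha hb

theorem IntC.sub {a b : E} (ha : IntC A z a) (hb : IntC A z b) : IntC A z (a - b) :=
  RingHom.IsIntegralElem.sub _ ha hb

theorem IntC.neg {a : E} (ha : IntC A z a) : IntC A z (-a) :=
  RingHom.IsIntegralElem.neg _ ha

theorem IntC.pow {a : E} (ha : IntC A z a) : ∀ n : ℕ, IntC A z (a ^ n)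
  | 0 => by rw [pow_zero]; exact intC_one
  | n + 1 => by rw [pow_succ]; exact (ha.pow n).mul ha

theorem intC_sum {ι : Type*} {s : Finset ι} {f : ι → E} (h : ∀ i ∈ s, IntC A z (f i)) :
    IntC A z (∑ i ∈ s, f i) :=
  Finset.sum_induction f _ (fun _ _ => IntC.add) intC_zero h

theorem intC_prod {ι : Type*} {s : Finset ι} {f : ι → E} (h : ∀ i ∈ s, IntC A z (f i)) :
    IntC A z (∏ i ∈ s, f i) :=
  Finset.prod_induction f _ (fun _ _ => IntC.mul) intC_one h

/-- The inclusion of a valuation ring in a larger one. -/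
def inclA {B : ValuationSubring K} (h : A ≤ B) : A →+* B := A.subtype.codRestrict B fun a => h a.2

theorem evC_map {B : ValuationSubring K} (h : A ≤ B) (P : A[X]) :
    evC B z (P.map (inclA h)) = evC A z P := by
  simp only [evC, coe_eval₂RingHom, eval₂_map]
  rfl

theorem IntC.mono {B : ValuationSubring K} (h : A ≤ B) {b : E} (hb : IntC A z b) : IntC B z b := by
  obtain ⟨P, hP, he⟩ := hb
  refine ⟨P.map (mapRingHom (inclA h)), hP.map _, ?_⟩
  rw [eval₂_map, show (chartHom (E := E) B z).comp (mapRingHom (inclA h)) = chartHom A z from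
    RingHom.ext fun Q => congrArg (algebraMap (RatFunc K) E) (evC_map h Q)]
  exact he

/-! ### The coordinates -/

theorem transcendental_inv_X : Transcendental K (RatFunc.X⁻¹ : RatFunc K) := fun h => by
  have := h.inv
  rw [inv_inv] at this
  exact (RatFunc.transcendental_X (K := K)) this

theorem IsCoord.transcendental (hz : IsCoord K z) : Transcendental K z := by
  rcases hz with rfl | rfl
  · exact RatFunc.transcendental_X
  · exact transcendental_inv_X

theorem IsCoord.inv (hz : IsCoord K z) : IsCoord K z⁻¹ := by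
  rcases hz with rfl | rfl
  · exact Or.inr rfl
  · exact Or.inl (inv_inv _)

theorem evC_eq_aeval (P : A[X]) : evC A z P = aeval z (P.map A.subtype) := by
  simp only [evC, coe_eval₂RingHom, aeval_def, eval₂_map]
  rfl

theorem IsCoord.evC_injective (hz : IsCoord K z) : Function.Injective (evC A z) := by
  intro P Q h
  rw [evC_eq_aeval, evC_eq_aeval] at h
  exact Polynomial.map_injective _ A.subtype_injective
    ((transcendental_iff_injective.mp hz.transcendental) h)

theorem IsCoord.chartHom_ne_zero (hz : IsCoord K z) {P : A[X]} (hP : P ≠ 0) :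
    chartHom (E := E) A z P ≠ 0 := fun h =>
  hP (hz.evC_injective (by
    rw [map_zero]
    exact (_root_.map_eq_zero (algebraMap (RatFunc K) E)).mp h))

variable (A) in
/-- A nonzero multiple of a polynomial over `K` has coefficients in `A`. -/
theorem exists_scale_mem (p : K[X]) :
    ∃ (s : A) (q : A[X]), s ≠ 0 ∧ q.map A.subtype = C (s : K) * p := by
  obtain ⟨s, hs, h⟩ := IsLocalization.integerNormalization_spec (nonZeroDivisors A) p
  refine ⟨s, _, nonZeroDivisors.ne_zero hs, h.trans ?_⟩
  rw [Algebra.smul_def, Polynomial.algebraMap_apply]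
  rfl

/-- The involution `X ↦ 1/X`. -/
def invX : RatFunc K →ₐ[K] RatFunc K :=
  RatFunc.liftAlgHom (aeval (RatFunc.X⁻¹ : RatFunc K)) (nonZeroDivisors_le_comap_nonZeroDivisors_of_injective _
    (transcendental_iff_injective.mp transcendental_inv_X))

theorem invX_poly (p : K[X]) :
    invX (algebraMap K[X] (RatFunc K) p) = aeval (RatFunc.X⁻¹ : RatFunc K) p := by
  rw [← div_one (algebraMap K[X] (RatFunc K) p), ← map_one (algebraMap K[X] (RatFunc K)), invX,
    RatFunc.liftAlgHom_apply_div, map_one, div_one]

theorem invX_X : invX (RatFunc.X : RatFunc K) = RatFunc.X⁻¹ := by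
  conv_lhs => rw [← RatFunc.algebraMap_X]
  rw [invX_poly, aeval_X]

theorem invX_invX (r : RatFunc K) : invX (invX r) = r := by
  have h : ∀ p : K[X], invX (invX (algebraMap K[X] (RatFunc K) p)) = algebraMap K[X] (RatFunc K) p :=
    fun p => by
      rw [invX_poly, ← Polynomial.aeval_algHom_apply, map_inv₀, invX_X, inv_inv,
        RatFunc.aeval_X_left_eq_algebraMap]
  induction r using RatFunc.induction_on with
  | f p q _ => rw [map_div₀, map_div₀, h, h]

theorem invX_evC (hz : IsCoord K z) (P : A[X]) : invX (evC A z P) = evC A z⁻¹ P := by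
  rw [evC_eq_aeval, evC_eq_aeval, ← Polynomial.aeval_algHom_apply]
  rcases hz with rfl | rfl
  · rw [invX_X]
  · rw [map_inv₀, invX_X]

/-- Fractions of `A[z]`. -/
theorem IsCoord.exists_frac (hz : IsCoord K z) (A : ValuationSubring K) (r : RatFunc K) :
    ∃ P Q : A[X], Q ≠ 0 ∧ r * evC A z Q = evC A z P := by
  have key : ∀ r : RatFunc K, ∃ P Q : A[X], Q ≠ 0 ∧
      r * evC A RatFunc.X Q = evC A RatFunc.X P := by
    intro r
    obtain ⟨s, P, hs, hP⟩ := exists_scale_mem A r.num
    obtain ⟨t, Q, ht, hQ⟩ := exists_scale_mem A r.denom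
    refine ⟨C t * P, C s * Q, mul_ne_zero (by simpa using hs) fun h => ?_, ?_⟩
    · rw [h, Polynomial.map_zero] at hQ
      rcases mul_eq_zero.mp hQ.symm with h' | h'
      · exact ht (Subtype.ext (C_eq_zero.mp h'))
      · exact r.denom_ne_zero h'
    · have hd : algebraMap K[X] (RatFunc K) r.denom ≠ 0 := RatFunc.algebraMap_ne_zero r.denom_ne_zero
      have hr : r * algebraMap K[X] (RatFunc K) r.denom = algebraMap K[X] (RatFunc K) r.num := by
        nth_rw 1 [← RatFunc.num_div_denom r]
        rw [div_mul_cancel₀ _ hd]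
      rw [evC_eq_aeval, evC_eq_aeval, Polynomial.map_mul, Polynomial.map_mul, hP, hQ, map_C, map_C,
        RatFunc.aeval_X_left_eq_algebraMap, RatFunc.aeval_X_left_eq_algebraMap, map_mul, map_mul,
        map_mul, map_mul, ← hr]
      simp only [ValuationSubring.subtype_apply]
      ring
  rcases hz with rfl | rfl
  · exact key r
  · obtain ⟨P, Q, hQ, h⟩ := key (invX r)
    refine ⟨P, Q, hQ, ?_⟩
    have h' := congrArg invX h
    rwa [map_mul, invX_invX, invX_evC (Or.inl rfl), invX_evC (Or.inl rfl)] at h'

/-- `A[z]` is integrally closed in `K(X)`. -/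
theorem IsCoord.exists_evC_of_integral (hz : IsCoord K z) {r : RatFunc K}
    (h : (evC A z).IsIntegralElem r) : ∃ P : A[X], evC A z P = r := by
  have key : ∀ r : RatFunc K, (evC A RatFunc.X).IsIntegralElem r →
      ∃ P : A[X], evC A RatFunc.X P = r := by
    intro r hr
    obtain ⟨P, hP, he⟩ := hr
    have e : evC A RatFunc.X = (algebraMap K[X] (RatFunc K)).comp (mapRingHom A.subtype) :=
      RingHom.ext fun Q => by
        rw [evC_eq_aeval, RatFunc.aeval_X_left_eq_algebraMap]; rfl
    rw [e, ← eval₂_map] at he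
    have hint : IsIntegral K[X] r := ⟨_, hP.map _, he⟩
    obtain ⟨p, rfl⟩ := IsIntegrallyClosed.isIntegral_iff.mp hint
    rw [eval₂_at_apply] at he
    have he' : (P.map (mapRingHom A.subtype)).eval p = 0 :=
      (FaithfulSMul.algebraMap_injective K[X] (RatFunc K)) (by rw [he, map_zero])
    letI : Algebra A[X] K[X] := (mapRingHom A.subtype).toAlgebra
    have hpint : IsIntegral A[X] p := ⟨P, hP, by rw [← eval_map]; exact he'⟩
    have hcoeff : ∀ i, IsIntegral A (p.coeff i) := fun i => IsIntegral.coeff hpint i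
    choose c hc using fun i => IsIntegrallyClosed.isIntegral_iff.mp (hcoeff i)
    refine ⟨∑ i ∈ Finset.range (p.natDegree + 1), C (c i) * X ^ i, ?_⟩
    rw [e]
    simp only [RingHom.comp_apply, coe_mapRingHom, Polynomial.map_sum, Polynomial.map_mul, map_C,
      Polynomial.map_pow, map_X]
    congr 1
    conv_rhs => rw [p.as_sum_range_C_mul_X_pow]
    exact Finset.sum_congr rfl fun i _ => by rw [← hc i]; rfl
  rcases hz with rfl | rfl
  · exact key r h
  · obtain ⟨P, hP, he⟩ := h
    obtain ⟨Q, hQ⟩ := key (invX r) ⟨P, hP, by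
      have e : (invX : RatFunc K →ₐ[K] RatFunc K).toRingHom.comp (evC A RatFunc.X⁻¹) =
          evC A RatFunc.X := RingHom.ext fun Q => by
        show invX (evC A _ Q) = _
        rw [invX_evC (Or.inr rfl), inv_inv]
      rw [← e]
      show eval₂ _ ((invX : RatFunc K →ₐ[K] RatFunc K).toRingHom r) P = 0
      rw [← hom_eval₂, he, map_zero]⟩
    exact ⟨Q, by rw [← invX_invX r, ← hQ, invX_evC (Or.inl rfl)]⟩

section finite

variable [FiniteDimensional (RatFunc K) E]

/-- Traces of integral elements are polynomials. -/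
theorem IsCoord.exists_trace [Algebra.IsSeparable (RatFunc K) E] (hz : IsCoord K z) {b : E}
    (hb : IntC A z b) : ∃ P : A[X], evC A z P = Algebra.trace (RatFunc K) E b := by
  refine hz.exists_evC_of_integral ?_
  set Ω := AlgebraicClosure E
  set ι := algebraMap (RatFunc K) Ω
  have hsum : (ι.comp (evC A z)).IsIntegralElem (ι (Algebra.trace (RatFunc K) E b)) := by
    rw [show ι (Algebra.trace (RatFunc K) E b) = ∑ σ : E →ₐ[RatFunc K] Ω, σ b from
      trace_eq_sum_embeddings Ω]
    refine Finset.sum_induction _ _ (fun _ _ => RingHom.IsIntegralElem.add _)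
      (by rw [← map_zero (ι.comp (evC A z))]; exact RingHom.isIntegralElem_map _) fun σ _ => ?_
    obtain ⟨P, hP, he⟩ := hb
    refine ⟨P, hP, ?_⟩
    have e : ι.comp (evC A z) = σ.toRingHom.comp (chartHom (E := E) A z) :=
      RingHom.ext fun Q => (σ.commutes (evC A z Q)).symm
    rw [e]
    show eval₂ _ (σ.toRingHom b) P = 0
    rw [← hom_eval₂, he, map_zero]
  obtain ⟨P, hP, he⟩ := hsum
  refine ⟨P, hP, ι.injective ?_⟩
  rw [hom_eval₂, he, map_zero]

/-- Every element has an integral multiple. -/
theorem IsCoord.exists_multiple (hz : IsCoord K z) (A : ValuationSubring K) (b : E) :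
    ∃ L : A[X], L ≠ 0 ∧ IntC A z (chartHom (E := E) A z L * b) := by
  classical
  set μ := minpoly (RatFunc K) b
  set n := μ.natDegree
  have hμ : μ.Monic := minpoly.monic (Algebra.IsIntegral.isIntegral b)
  choose u v hv huv using fun i : ℕ => hz.exists_frac A (μ.coeff i)
  set L := ∏ i ∈ Finset.range n, v i
  refine ⟨L, Finset.prod_ne_zero_iff.mpr fun i _ => hv i, ?_⟩
  have hc : ∀ i < n, ∃ w : A[X], evC A z w = μ.coeff i * evC A z L ^ (n - i) := fun i hi =>
    ⟨u i * (∏ j ∈ (Finset.range n).erase i, v j) * L ^ (n - i - 1), by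
      rw [map_mul, map_mul, ← huv, mul_assoc (μ.coeff i), ← map_mul,
        Finset.mul_prod_erase (Finset.range n) v (Finset.mem_range.mpr hi), map_pow,
        mul_assoc (μ.coeff i), ← pow_succ']
      congr 2
      omega⟩
  choose! w hw using hc
  refine ⟨X ^ n + ∑ i ∈ Finset.range n, C (w i) * X ^ i, monic_X_pow_add ?_, ?_⟩
  · refine (degree_sum_le _ _).trans_lt ((Finset.sup_lt_iff (WithBot.bot_lt_coe n)).mpr fun i hi => ?_)
    exact (degree_C_mul_X_pow_le _ _).trans_lt (WithBot.coe_lt_coe.mpr (Finset.mem_range.mp hi))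
  · set l : E := chartHom (E := E) A z L
    have hroot : b ^ n + ∑ i ∈ Finset.range n, algebraMap (RatFunc K) E (μ.coeff i) * b ^ i = 0 := by
      have h : aeval b μ = 0 := minpoly.aeval (RatFunc K) b
      rw [hμ.as_sum] at h
      simpa using h
    simp only [eval₂_add, eval₂_X_pow, eval₂_finset_sum, eval₂_mul, eval₂_C]
    have e : ∀ i ∈ Finset.range n, chartHom (E := E) A z (w i) * (l * b) ^ i =
        l ^ n * (algebraMap (RatFunc K) E (μ.coeff i) * b ^ i) := fun i hi => by
      have hi' : i < n := Finset.mem_range.mp hi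
      rw [chartHom, RingHom.comp_apply, hw i hi', map_mul, map_pow,
        show l ^ n = l ^ (n - i) * l ^ i by rw [← pow_add]; congr 1; omega]
      show _ * l ^ (n - i) * _ = _
      ring
    rw [Finset.sum_congr rfl e, ← Finset.mul_sum, mul_pow, ← mul_add, hroot, mul_zero]

end finite

/-- An integral element times a power of `1/z` is integral on the other chart. -/
theorem IntC.exists_inv_pow (hz : IsCoord K z) {b : E} (hb : IntC A z b) :
    ∃ N : ℕ, IntC A z⁻¹ (algebraMap (RatFunc K) E z⁻¹ ^ N * b) := by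
  classical
  obtain ⟨P, hP, he⟩ := hb
  set D := (Finset.range P.natDegree).sup fun i => (P.coeff i).natDegree
  set n := P.natDegree
  refine ⟨D, X ^ n + ∑ i ∈ Finset.range n, C ((P.coeff i).reflect ((n - i) * D)) * X ^ i,
    monic_X_pow_add ?_, ?_⟩
  · refine (degree_sum_le _ _).trans_lt ((Finset.sup_lt_iff (WithBot.bot_lt_coe n)).mpr fun i hi => ?_)
    exact (degree_C_mul_X_pow_le _ _).trans_lt (WithBot.coe_lt_coe.mpr (Finset.mem_range.mp hi))
  · set y : E := algebraMap (RatFunc K) E z⁻¹
    have hz0 : z ≠ 0 := fun h => hz.transcendental (h ▸ isAlgebraic_zero)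
    have hrefl : ∀ (Q : A[X]) (m : ℕ), Q.natDegree ≤ m →
        chartHom (E := E) A z⁻¹ (Q.reflect m) = y ^ m * chartHom (E := E) A z Q := fun Q m hm => by
      letI : Invertible z := invertibleOfNonzero hz0
      have h := eval₂_reflect_mul_pow (RatFunc.C.comp A.subtype) z m Q hm
      rw [invOf_eq_inv] at h
      simp only [chartHom, RingHom.comp_apply, evC, coe_eval₂RingHom, y, ← map_pow, ← map_mul]
      congr 1
      rw [← h]
      rw [inv_pow, ← mul_assoc, mul_comm ((z ^ m)⁻¹), mul_assoc,
        inv_mul_cancel₀ (pow_ne_zero m hz0), mul_one]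
    have hdeg : ∀ i ∈ Finset.range n, (P.coeff i).natDegree ≤ (n - i) * D := fun i hi =>
      (Finset.le_sup (f := fun i => (P.coeff i).natDegree) hi).trans
        (Nat.le_mul_of_pos_left D (by have := Finset.mem_range.mp hi; omega))
    rw [hP.as_sum] at he
    simp only [eval₂_add, eval₂_X_pow, eval₂_finset_sum, eval₂_mul, eval₂_C] at he ⊢
    have e : ∀ i ∈ Finset.range n,
        chartHom (E := E) A z⁻¹ ((P.coeff i).reflect ((n - i) * D)) * (y ^ D * b) ^ i =
        y ^ (n * D) * (chartHom (E := E) A z (P.coeff i) * b ^ i) := fun i hi => by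
      have hi' : i < n := Finset.mem_range.mp hi
      rw [hrefl _ _ (hdeg i hi), show n * D = (n - i) * D + D * i by
        rw [mul_comm D i, ← add_mul]; congr 1; omega, pow_add, mul_pow, ← pow_mul]
      ring
    rw [Finset.sum_congr rfl e, ← Finset.mul_sum, mul_pow, ← pow_mul, mul_comm D n, ← mul_add]
    exact mul_eq_zero_of_right _ he

/-- Elements integral over `K` on both charts are constants. -/
theorem exists_cst_of_intC [IsAlgClosed K] [FiniteDimensional (RatFunc K) E] {b : E}
    (h₁ : IntC (⊤ : ValuationSubring K) RatFunc.X b)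
    (h₂ : IntC (⊤ : ValuationSubring K) RatFunc.X⁻¹ b) : ∃ a : K, cst a = b := by
  classical
  set μ := minpoly (RatFunc K) b
  have hμ : μ.Monic := minpoly.monic (Algebra.IsIntegral.isIntegral b)
  have hcoeff : ∀ {z : RatFunc K}, IsCoord K z → IntC (⊤ : ValuationSubring K) z b →
      ∀ i, ∃ P, evC (⊤ : ValuationSubring K) z P = μ.coeff i := fun {z} hz hb i => by
    obtain ⟨P, hP, he⟩ := hb
    have hdvd : μ ∣ P.map (evC ⊤ z) := minpoly.dvd _ _ (by
      rw [aeval_def, eval₂_map]; exact he)
    letI : Algebra (⊤ : ValuationSubring K)[X] (RatFunc K) := (evC ⊤ z).toAlgebra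
    exact hz.exists_evC_of_integral (isIntegral_coeff_of_dvd P μ hP hμ hdvd i)
  have hconst : ∀ i, ∃ c : K, RatFunc.C c = μ.coeff i := fun i => by
    obtain ⟨P, hP⟩ := hcoeff (Or.inl rfl) h₁ i
    obtain ⟨Q, hQ⟩ := hcoeff (Or.inr rfl) h₂ i
    set p := P.map (⊤ : ValuationSubring K).subtype
    set q := Q.map (⊤ : ValuationSubring K).subtype
    rw [evC_eq_aeval] at hP hQ
    set N := q.natDegree
    have hX : (RatFunc.X : RatFunc K) ≠ 0 := RatFunc.X_ne_zero
    letI : Invertible (RatFunc.X : RatFunc K)⁻¹ := invertibleOfNonzero (inv_ne_zero hX)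
    have h := eval₂_reflect_mul_pow (algebraMap K (RatFunc K)) (RatFunc.X : RatFunc K)⁻¹ N q le_rfl
    rw [invOf_eq_inv, inv_inv, ← aeval_def, ← aeval_def] at h
    have hpX : p * X ^ N = q.reflect N := by
      refine (transcendental_iff_injective.mp (RatFunc.transcendental_X (K := K))) ?_
      rw [map_mul, map_pow, aeval_X, hP, ← hQ, ← h, mul_assoc, inv_pow, inv_mul_cancel₀ (pow_ne_zero _ hX),
        mul_one]
    have hp : p.natDegree = 0 := by
      by_contra h0
      have hp0 : p ≠ 0 := fun h => h0 (by rw [h, natDegree_zero])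
      have hle : (q.reflect N).natDegree ≤ N := natDegree_le_iff_coeff_eq_zero.mpr fun j hj => by
        rw [coeff_reflect, revAt_eq_self_of_lt (by exact_mod_cast hj)]
        exact coeff_eq_zero_of_natDegree_lt (by exact_mod_cast hj)
      rw [← hpX, natDegree_mul hp0 (pow_ne_zero _ X_ne_zero), natDegree_X_pow] at hle
      omega
    obtain ⟨c, hc⟩ := natDegree_eq_zero.mp hp
    exact ⟨c, by rw [← hP]; show _ = aeval RatFunc.X p; rw [← hc, aeval_C]; rfl⟩
  choose c hc using hconst
  set n := μ.natDegree
  set g : K[X] := X ^ n + ∑ i ∈ Finset.range n, C (c i) * X ^ i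
  have hg : g.Monic := monic_X_pow_add <| by
    refine (degree_sum_le _ _).trans_lt ((Finset.sup_lt_iff (WithBot.bot_lt_coe n)).mpr fun i hi => ?_)
    exact (degree_C_mul_X_pow_le _ _).trans_lt (WithBot.coe_lt_coe.mpr (Finset.mem_range.mp hi))
  have hgb : g.eval₂ (cst (E := E)) b = 0 := by
    have h : aeval b μ = 0 := minpoly.aeval (RatFunc K) b
    rw [hμ.as_sum] at h
    simp only [g, eval₂_add, eval₂_X_pow, eval₂_finset_sum, eval₂_mul, eval₂_C]
    simpa [cst, hc] using h
  have hmem := (mem_roots ((hg.map (cst (E := E))).ne_zero)).mpr (show IsRoot (g.map cst) b by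
    rw [IsRoot, eval_map]; exact hgb)
  rw [Polynomial.Splits.roots_map (IsAlgClosed.splits g), Multiset.mem_map] at hmem
  obtain ⟨a, -, ha⟩ := hmem
  exact ⟨a, ha⟩

end FA.Carayol

end
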