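import Fermat.Agent.Carayol.Connect.Approx
import Mathlib.LinearAlgebra.Trace
import Mathlib.LinearAlgebra.Basis.VectorSpace
import Mathlib.RingTheory.DedekindDomain.IntegralClosure

/-!
# Connectedness of the special fibre

Approximate idempotents of the two charts which agree on the overlap are congruent modulo `δ` to
one constant, up to a polynomial in the coordinate with a unit coefficient.
-/

set_option autoImplicit false
set_option linter.style.haveILetI false

noncomputable section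

namespace FA.Carayol

open Polynomial

variable {K : Type*} [Field K] {E : Type*} [Field E] [Algebra (RatFunc K) E]
  {A : ValuationSubring K} {z : RatFunc K}

theorem chartHom_ofNat_coeff (z : RatFunc K) (P : A[X]) {d : ℕ} (hd : P.natDegree < d) :
    chartHom (E := E) A z P =
      ∑ j ∈ Finset.range d, cst (P.coeff j : K) * algebraMap (RatFunc K) E z ^ j := by
  conv_lhs => rw [P.as_sum_range_C_mul_X_pow' hd]
  rw [map_sum]
  exact Finset.sum_congr rfl fun j _ => by rw [map_mul, map_pow, chartHom_C, chartHom_X]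

/-- The elements integral over `K[z]` after clearing the poles at the roots of `O`. -/
def poleSub (z : RatFunc K) (O : K[X]) :
    letI := (cst (K := K) (E := E)).toAlgebra
    Submodule K E :=
  letI := (cst (K := K) (E := E)).toAlgebra
  { carrier := {u | IntC (⊤ : ValuationSubring K) z (kHom (E := E) z O ^ 2 * u)}
    add_mem' := fun {a b} ha hb => by
      show IntC _ _ _
      rw [mul_add]
      exact IntC.add ha hb
    zero_mem' := by show IntC _ _ _; rw [mul_zero]; exact intC_zero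
    smul_mem' := fun c a ha => by
      show IntC _ _ _
      rw [Algebra.smul_def, mul_left_comm]
      exact IntC.mul (intC_cst (A := ⊤) ⟨c, trivial⟩) ha }

theorem mem_poleSub_of_intC {u : E} (O : K[X]) (h : IntC A z u) :
    u ∈ poleSub (E := E) z O := by
  show IntC _ _ _
  rw [pow_two]
  exact ((intC_top_kHom O).mul (intC_top_kHom O)).mul h.top

/-- Finitely many elements have a common multiple by a constant and a polynomial with a unit
coefficient which is integral. -/
theorem exists_common_multiple [FiniteDimensional (RatFunc K) E] (hz : IsCoord K z) {ι : Type*}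
    (s : Finset ι) (w : ι → E) :
    ∃ (c : A) (P : A[X]), c ≠ 0 ∧ (∃ j, IsUnit (P.coeff j)) ∧
      ∀ l ∈ s, IntC A z (cst (c : K) * chartHom (E := E) A z P * w l) := by
  classical
  choose L hL hLi using fun l => hz.exists_multiple A (w l)
  obtain ⟨c, P, hc, hP, hu⟩ := exists_primitive (A := A)
    (P := ∏ l ∈ s, L l) (Finset.prod_ne_zero_iff.mpr fun l _ => hL l)
  refine ⟨c, P, hc, hu, fun l hl => ?_⟩
  rw [← chartHom_C (z := z), ← map_mul, ← hP, ← Finset.mul_prod_erase s L hl, map_mul,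
    mul_comm (chartHom A z (L l)), mul_assoc]
  exact (intC_hom _).mul (hLi l)

/-- The coefficients above the degree of the other chart are small. -/
theorem coeff_mem_of_overlap {P Q R : A[X]} {N m : ℕ} {t : A}
    (h : RatFunc.X ^ m * evC A RatFunc.X P =
      RatFunc.X ^ (N + m) * evC A RatFunc.X⁻¹ Q + RatFunc.C (t : K) * evC A RatFunc.X R) :
    (∀ j, N < j → P.coeff j = t * R.coeff (j + m)) ∧
      ∀ j, (if j ≤ N then P.coeff (N - j) else 0) - Q.coeff j =
        t * (if j ≤ N + m then R.coeff (N + m - j) else 0) := by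
  set e := Q.natDegree
  have hX : (RatFunc.X : RatFunc K) ≠ 0 := RatFunc.X_ne_zero
  have hrefl : RatFunc.X ^ e * evC A RatFunc.X⁻¹ Q = evC A RatFunc.X (Q.reflect e) := by
    letI : Invertible (RatFunc.X : RatFunc K) := invertibleOfNonzero hX
    letI : Invertible (RatFunc.X⁻¹ : RatFunc K) := invertibleOfNonzero (inv_ne_zero hX)
    have e' := eval₂_reflect_mul_pow (RatFunc.C.comp A.subtype) (RatFunc.X⁻¹ : RatFunc K) e Q le_rfl
    rw [invOf_eq_inv, inv_inv] at e'
    simp only [evC, coe_eval₂RingHom]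
    rw [← e', mul_comm, mul_assoc, inv_pow, inv_mul_cancel₀ (pow_ne_zero _ hX), mul_one]
  have h2 : X ^ (e + m) * P = X ^ (N + m) * Q.reflect e + C t * (X ^ e * R) := by
    refine (IsCoord.evC_injective (K := K) (A := A) (Or.inl rfl)) ?_
    simp only [map_mul, map_add, map_pow, evC_X, evC_C, ← hrefl]
    linear_combination RatFunc.X ^ e * h
  have hrefl0 : ∀ j, e < j → (Q.reflect e).coeff j = 0 := fun j hj => by
    rw [coeff_reflect, revAt_eq_self_of_lt hj]
    exact coeff_eq_zero_of_natDegree_lt hj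
  refine ⟨fun j hj => ?_, fun j => ?_⟩
  · have h3 := congrArg (fun S : A[X] => S.coeff (j + (e + m))) h2
    simp only [coeff_add, coeff_C_mul, coeff_X_pow_mul] at h3
    rw [show j + (e + m) = (j + e - N) + (N + m) by omega, coeff_X_pow_mul, hrefl0 _ (by omega),
      zero_add] at h3
    rw [show (j + e - N) + (N + m) = (j + m) + e by omega, coeff_X_pow_mul] at h3
    exact h3
  · by_cases hje : j ≤ e + N + m
    · have h3 := congrArg (fun S : A[X] => S.coeff (e + N + m - j)) h2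
      simp only [coeff_add, coeff_C_mul, coeff_X_pow_mul'] at h3
      have hP : (if e + m ≤ e + N + m - j then P.coeff (e + N + m - j - (e + m)) else 0) =
          if j ≤ N then P.coeff (N - j) else 0 := by
        by_cases hjN : j ≤ N
        · rw [if_pos (show e + m ≤ e + N + m - j by omega), if_pos hjN,
            show e + N + m - j - (e + m) = N - j by omega]
        · rw [if_neg (show ¬ e + m ≤ e + N + m - j by omega), if_neg hjN]
      have hR : (if e ≤ e + N + m - j then R.coeff (e + N + m - j - e) else 0) =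
          if j ≤ N + m then R.coeff (N + m - j) else 0 := by
        by_cases hjm : j ≤ N + m
        · rw [if_pos (show e ≤ e + N + m - j by omega), if_pos hjm,
            show e + N + m - j - e = N + m - j by omega]
        · rw [if_neg (show ¬ e ≤ e + N + m - j by omega), if_neg hjm]
      have hQ : (if N + m ≤ e + N + m - j then (Q.reflect e).coeff (e + N + m - j - (N + m)) else 0) =
          Q.coeff j := by
        by_cases hje' : j ≤ e
        · rw [if_pos (show N + m ≤ e + N + m - j by omega),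
            show e + N + m - j - (N + m) = e - j by omega, coeff_reflect,
            revAt_le (Nat.sub_le _ _), Nat.sub_sub_self hje']
        · rw [if_neg (show ¬ N + m ≤ e + N + m - j by omega),
            coeff_eq_zero_of_natDegree_lt (show Q.natDegree < j by omega)]
      rw [hP, hQ, hR] at h3
      linear_combination h3
    · rw [if_neg (show ¬ j ≤ N by omega), if_neg (show ¬ j ≤ N + m by omega),
        coeff_eq_zero_of_natDegree_lt (show Q.natDegree < j by omega)]
      simp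

/-- Trace coordinates of the two charts. -/
theorem exists_coords [FiniteDimensional (RatFunc K) E] [Algebra.IsSeparable (RatFunc K) E] :
    ∃ (ι : Type) (_ : Fintype ι) (N : ℕ) (bs : ι → E),
      ∀ (t : A) (e₀ e₁ : E), IntC A RatFunc.X e₀ → IntC A RatFunc.X⁻¹ e₁ →
        (∃ c, Ov A c ∧ e₀ - e₁ = cst (t : K) * c) →
        ∃ (a : ι → ℕ → A) (U U' : ι → A[X]),
          e₀ = (∑ i, ∑ j ∈ Finset.range (N + 1),
              cst (a i j : K) * (algebraMap (RatFunc K) E RatFunc.X ^ j * bs i)) +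
            cst (t : K) * ∑ i, chartHom (E := E) A RatFunc.X (U i) * bs i ∧
          e₁ = (∑ i, ∑ j ∈ Finset.range (N + 1),
              cst (a i j : K) * (algebraMap (RatFunc K) E RatFunc.X ^ j * bs i)) +
            cst (t : K) * ∑ i, chartHom (E := E) A RatFunc.X⁻¹ (U' i) *
              (algebraMap (RatFunc K) E RatFunc.X ^ N * bs i) := by
  classical
  set n := Module.finrank (RatFunc K) E
  have b0 := Module.finBasis (RatFunc K) E
  choose L hL hLi using fun i => IsCoord.exists_multiple (Or.inl rfl) A (b0 i)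
  set b := b0.unitsSMul fun i => Units.mk0 (evC A RatFunc.X (L i))
    (fun h => hL i (IsCoord.evC_injective (Or.inl rfl) (by rw [h, map_zero]))) with hb
  have hbi : ∀ i, IntC A RatFunc.X (b i) := fun i => by
    rw [hb, Module.Basis.unitsSMul_apply, Units.smul_def, Units.val_mk0, Algebra.smul_def]
    exact hLi i
  choose Ni hNi using fun i => (hbi i).exists_inv_pow (Or.inl rfl)
  set N := Finset.univ.sup Ni
  set x := algebraMap (RatFunc K) E RatFunc.X
  set y := algebraMap (RatFunc K) E RatFunc.X⁻¹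
  have hxy : x * y = 1 := by
    rw [← map_mul, mul_inv_cancel₀ RatFunc.X_ne_zero, map_one]
  have hbN : ∀ i, IntC A RatFunc.X⁻¹ (y ^ N * b i) := fun i =>
    (hNi i).coord_pow_mul (Finset.le_sup (Finset.mem_univ i)) rfl
  set bd := (Algebra.traceForm (RatFunc K) E).dualBasis (traceForm_nondegenerate _ _) b
  refine ⟨Fin n, inferInstance, N, bd, fun t e₀ e₁ h₀ h₁ hc => ?_⟩
  obtain ⟨c, ⟨m, hm⟩, hce⟩ := hc
  choose P hP using fun i => IsCoord.exists_trace (Or.inl rfl) (h₀.mul (hbi i))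
  choose Q hQ using fun i => IsCoord.exists_trace (Or.inr rfl) (h₁.mul (hbN i))
  choose R hR using fun i => IsCoord.exists_trace (Or.inl rfl) (hm.mul (hbi i))
  have htr : ∀ (r : RatFunc K) (e : E), Algebra.trace (RatFunc K) E (algebraMap (RatFunc K) E r * e) =
      r * Algebra.trace (RatFunc K) E e := fun r e => by
    rw [← Algebra.smul_def, map_smul, smul_eq_mul]
  have hQ' : ∀ i, Algebra.trace (RatFunc K) E (e₁ * b i) =
      RatFunc.X ^ N * evC A RatFunc.X⁻¹ (Q i) := fun i => by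
    rw [hQ i, ← htr, map_pow,
      show x ^ N * (e₁ * (y ^ N * b i)) = (x * y) ^ N * (e₁ * b i) by rw [mul_pow]; ring, hxy,
      one_pow, one_mul]
  have hrel : ∀ i, RatFunc.X ^ m * evC A RatFunc.X (P i) =
      RatFunc.X ^ (N + m) * evC A RatFunc.X⁻¹ (Q i) + RatFunc.C (t : K) * evC A RatFunc.X (R i) :=
    fun i => by
    rw [hP i, hR i, show (RatFunc.X : RatFunc K) ^ (N + m) * evC A RatFunc.X⁻¹ (Q i) =
      RatFunc.X ^ m * (RatFunc.X ^ N * evC A RatFunc.X⁻¹ (Q i)) by ring, ← hQ' i, ← htr, ← htr,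
      ← htr, ← map_add]
    congr 1
    rw [map_pow, show algebraMap (RatFunc K) E (RatFunc.C (t : K)) = cst (t : K) from rfl]
    linear_combination (x ^ m * b i) * hce
  have hcoef := fun i => coeff_mem_of_overlap (hrel i)
  have hsum : ∀ e : E, e = ∑ i, algebraMap (RatFunc K) E (Algebra.trace (RatFunc K) E (e * b i)) *
      bd i := fun e => by
    conv_lhs => rw [← bd.sum_repr e]
    refine Finset.sum_congr rfl fun i _ => ?_
    rw [LinearMap.BilinForm.dualBasis_repr_apply, Algebra.traceForm_apply, Algebra.smul_def]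
  set d := fun i => max (P i).natDegree N + 1
  have hd' : ∀ i, N + 1 ≤ d i := fun i => Nat.succ_le_succ (le_max_right _ _)
  set U : Fin n → A[X] := fun i =>
    ∑ j ∈ Finset.Ico (N + 1) (d i), C ((R i).coeff (j + m)) * X ^ j
  set d' := fun i => max (Q i).natDegree (N + m) + 1
  set U' : Fin n → A[X] := fun i =>
    -∑ j ∈ Finset.range (d' i),
      C (if j ≤ N + m then (R i).coeff (N + m - j) else 0) * X ^ j
  refine ⟨fun i j => (P i).coeff j, U, U', ?_, ?_⟩
  · conv_lhs => rw [hsum e₀]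
    rw [Finset.mul_sum, ← Finset.sum_add_distrib]
    refine Finset.sum_congr rfl fun i _ => ?_
    rw [← hP i, show algebraMap (RatFunc K) E (evC A RatFunc.X (P i)) = chartHom A RatFunc.X (P i)
      from rfl, chartHom_ofNat_coeff RatFunc.X (P i) (d := d i) (by simp [d]),
      ← Finset.sum_range_add_sum_Ico _ (hd' i), add_mul, Finset.sum_mul]
    congr 1
    · exact Finset.sum_congr rfl fun j _ => by ring
    · simp only [U, map_sum, map_mul, map_pow, chartHom_C, chartHom_X, Finset.sum_mul, Finset.mul_sum]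
      refine Finset.sum_congr rfl fun j hj => ?_
      rw [(hcoef i).1 j (by have := (Finset.mem_Ico.mp hj).1; omega)]
      push_cast
      rw [map_mul]
      ring
  · conv_lhs => rw [hsum e₁]
    rw [Finset.mul_sum, ← Finset.sum_add_distrib]
    refine Finset.sum_congr rfl fun i _ => ?_
    rw [hQ' i, map_mul, map_pow,
      show algebraMap (RatFunc K) E (evC A RatFunc.X⁻¹ (Q i)) = chartHom A RatFunc.X⁻¹ (Q i) from rfl,
      chartHom_ofNat_coeff RatFunc.X⁻¹ (Q i) (d := d' i) (by simp [d'])]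
    simp only [U', map_neg, map_sum, map_mul, map_pow, chartHom_C, chartHom_X, Finset.sum_mul,
      Finset.mul_sum]
    rw [← Finset.sum_range_reflect (fun j => cst ((P i).coeff j : K) * (x ^ j * bd i)) (N + 1)]
    set F : ℕ → E := fun j =>
      cst ((if j ≤ N then (P i).coeff (N - j) else 0 : A) : K) * (x ^ N * y ^ j * bd i)
    have h1 : ∑ j ∈ Finset.range (N + 1), cst ((P i).coeff (N + 1 - 1 - j) : K) *
        (x ^ (N + 1 - 1 - j) * bd i) = ∑ j ∈ Finset.range (d' i), F j := by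
      refine (Finset.sum_congr rfl fun j hj => ?_).trans
        (Finset.sum_subset (s₁ := Finset.range (N + 1)) (f := F) (fun j hj => ?_) fun j _ hj => ?_)
      · have hjN : j ≤ N := Nat.lt_succ_iff.mp (Finset.mem_range.mp hj)
        simp only [F, if_pos hjN, Nat.add_sub_cancel]
        rw [show x ^ N * y ^ j = x ^ (N - j) * (x * y) ^ j by
          rw [mul_pow, ← mul_assoc, ← pow_add, Nat.sub_add_cancel hjN], hxy, one_pow, mul_one]
      · have := Finset.mem_range.mp hj
        exact Finset.mem_range.mpr (by simp only [d']; omega)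
      · have hjN : ¬ j ≤ N := fun h => hj (Finset.mem_range.mpr (Nat.lt_succ_of_le h))
        simp only [F, if_neg hjN, ZeroMemClass.coe_zero, map_zero, zero_mul]
    rw [h1, neg_mul, mul_neg, Finset.sum_mul, Finset.mul_sum, ← sub_eq_add_neg, ← Finset.sum_sub_distrib]
    refine Finset.sum_congr rfl fun j _ => ?_
    simp only [F]
    have h2 := congrArg (fun a : A => cst (E := E) (a : K)) ((hcoef i).2 j)
    push_cast at h2
    rw [map_sub, map_mul] at h2
    linear_combination -(x ^ N * y ^ j * bd i) * h2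

/-- **Connectedness.** -/
theorem connected [IsAlgClosed K] [FiniteDimensional (RatFunc K) E]
    [Algebra.IsSeparable (RatFunc K) E] {δ : A}
    (harch : ∀ c : A, c ≠ 0 → ∃ k : ℕ, c ∣ δ ^ k)
    {e₀ e₁ b₀ b₁ : E} (he₀ : IntC A RatFunc.X e₀) (hb₀ : IntC A RatFunc.X b₀)
    (h₀ : e₀ * e₀ - e₀ = cst (δ : K) * b₀) (he₁ : IntC A RatFunc.X⁻¹ e₁)
    (hb₁ : IntC A RatFunc.X⁻¹ b₁) (h₁ : e₁ * e₁ - e₁ = cst (δ : K) * b₁)
    (hov : ∃ c, Ov A c ∧ e₀ - e₁ = cst (δ : K) * c) :
    ∃ (a : K) (P : A[X]) (b : E), (∃ i, IsUnit (P.coeff i)) ∧ IntC A RatFunc.X b ∧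
      chartHom (E := E) A RatFunc.X P * (e₀ - cst a) = cst (δ : K) * b := by
  classical
  letI : Algebra K E := (cst (K := K) (E := E)).toAlgebra
  obtain ⟨ι, _, N, bs, hco⟩ := exists_coords (E := E) (A := A)
  set x := algebraMap (RatFunc K) E RatFunc.X
  have hX : IsCoord K (RatFunc.X : RatFunc K) := Or.inl rfl
  have hX' : IsCoord K (RatFunc.X⁻¹ : RatFunc K) := Or.inr rfl
  set bs' : ι → E := fun i => x ^ N * bs i
  choose L₀ hL₀ hL₀i using fun i => hX.exists_multiple A (bs i)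
  choose L₁ hL₁ hL₁i using fun i => hX'.exists_multiple A (bs' i)
  have hmul : ∀ (z : RatFunc K) (L : ι → A[X]) (w : ι → E),
      (∀ i, IntC A z (chartHom (E := E) A z (L i) * w i)) →
      ∀ i, IntC A z (chartHom (E := E) A z (∏ i, L i) * w i) := fun z L w h i => by
    rw [← Finset.mul_prod_erase Finset.univ L (Finset.mem_univ i), map_mul,
      mul_comm (chartHom A z (L i)), mul_assoc]
    exact (intC_hom _).mul (h i)
  have hD₀ : ∏ i, L₀ i ≠ 0 := Finset.prod_ne_zero_iff.mpr fun i _ => hL₀ i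
  have hD₁ : ∏ i, L₁ i ≠ 0 := Finset.prod_ne_zero_iff.mpr fun i _ => hL₁ i
  obtain ⟨O₀, hO₀, hr₀, d₀, S₀, hS₀⟩ := exists_span hX bs hD₀ (hmul _ _ _ hL₀i)
  obtain ⟨O₁, hO₁, hr₁, d₁, S₁, hS₁⟩ := exists_span hX' bs' hD₁ (hmul _ _ _ hL₁i)
  set W₀ := poleSub (E := E) RatFunc.X O₀
  set W₁ := poleSub (E := E) RatFunc.X⁻¹ O₁
  set gens : ι × Fin (N + 1) → E := fun p => x ^ (p.2 : ℕ) * bs p.1
  set V : Submodule K E := Submodule.span K (Set.range gens) ⊔ Submodule.span K {1}
  set Φ : V →ₗ[K] (E ⧸ W₀) × (E ⧸ W₁) :=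
    (W₀.mkQ.prod W₁.mkQ).comp V.subtype
  obtain ⟨Ψ, hΨ⟩ := Φ.rangeRestrict.exists_rightInverse_of_surjective Φ.range_rangeRestrict
  obtain ⟨π, hπ⟩ := Submodule.exists_isCompl (LinearMap.range Φ)
  set pr : (E ⧸ W₀) × (E ⧸ W₁) →ₗ[K] LinearMap.range Φ := Submodule.projectionOnto _ π hπ
  set Linv : (E ⧸ W₀) × (E ⧸ W₁) →ₗ[K] E := V.subtype.comp (Ψ.comp pr)
  have hker : ∀ v ∈ V, v ∈ W₀ → v ∈ W₁ → ∃ a : K, cst a = v := fun v _ hv0 hv1 => by
    refine exists_cst_of_intC ?_ ?_
    · exact intC_top_of_two hX hO₀ hr₀ hr₁ hv0 hv1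
    · exact intC_top_of_two hX' hO₁ hr₁ hr₀ hv1 (by rw [inv_inv]; exact hv0)
  have hLinv : ∀ v (hv : v ∈ V), ∃ a : K, v - Linv (W₀.mkQ v, W₁.mkQ v) = cst a := by
    intro v hv
    have hΦv : Φ ⟨v, hv⟩ = (W₀.mkQ v, W₁.mkQ v) := rfl
    set p := pr (W₀.mkQ v, W₁.mkQ v) with hp
    have hp' : (p : (E ⧸ W₀) × (E ⧸ W₁)) = Φ ⟨v, hv⟩ := by
      rw [hp, ← hΦv]
      exact congrArg Subtype.val (Submodule.projectionOnto_apply_left hπ ⟨_, LinearMap.mem_range_self Φ _⟩)
    have h2 : Φ (Ψ p) = Φ ⟨v, hv⟩ := by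
      rw [← hp']
      exact congrArg Subtype.val (LinearMap.congr_fun hΨ p)
    have h3 : Φ (⟨v, hv⟩ - Ψ p) = 0 := by rw [map_sub, h2, sub_self]
    obtain ⟨h30, h31⟩ := Prod.ext_iff.mp h3
    set r : V := ⟨v, hv⟩ - Ψ p with hr
    obtain ⟨a, ha⟩ := hker (r : E) r.2
      ((Submodule.Quotient.mk_eq_zero W₀).mp h30) ((Submodule.Quotient.mk_eq_zero W₁).mp h31)
    exact ⟨a, ha.symm⟩
  set w₀ : ι × Fin d₀ → E := fun p => Linv (W₀.mkQ (S₀ p.1 p.2), 0)
  set w₁ : ι × Fin d₁ → E := fun p => Linv (0, W₁.mkQ (S₁ p.1 p.2))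
  obtain ⟨C₀, P₀, hC₀, hP₀, hPi⟩ := exists_common_multiple (A := A) hX
    (Finset.univ : Finset (ι ⊕ (ι × Fin d₀) ⊕ (ι × Fin d₁))) (Sum.elim bs (Sum.elim w₀ w₁))
  obtain ⟨k, c', hk⟩ := harch C₀ hC₀
  obtain ⟨f₀, hf₀, ⟨c₀, hc₀, hcf₀⟩, d, hd, hdf⟩ := exists_lift_idem he₀ hb₀ h₀ k
  obtain ⟨f₁, hf₁, ⟨c₁, hc₁, hcf₁⟩, d', hd', hdf'⟩ := exists_lift_idem he₁ hb₁ h₁ k
  obtain ⟨c, hc, hce⟩ := hov
  obtain ⟨c₂, hc₂, hce₂⟩ := ov_idem_unique (ov_of_intC hf₀) (ov_of_intC_inv hf₁) (ov_of_intC hd)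
    (ov_of_intC_inv hd') (hc.add ((ov_of_intC hc₀).sub (ov_of_intC_inv hc₁))) hdf hdf'
    (by linear_combination hcf₀ - hcf₁ + hce)
  set t : A := δ ^ (k + 1) with ht
  have htK : cst (E := E) (δ : K) ^ (k + 1) = cst (t : K) := by
    rw [ht, ← map_pow]; congr 1
  obtain ⟨a, U, U', hf₀e, hf₁e⟩ := hco t f₀ f₁ hf₀ hf₁ ⟨c₂, hc₂, by rw [← htK]; exact hce₂⟩
  set β : E := ∑ i, ∑ j ∈ Finset.range (N + 1), cst (a i j : K) * (x ^ j * bs i)
  set γ₀ : E := ∑ i, chartHom (E := E) A RatFunc.X (U i) * bs i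
  set γ₁ : E := ∑ i, chartHom (E := E) A RatFunc.X⁻¹ (U' i) * bs' i
  have hβV : β ∈ V := by
    refine Submodule.mem_sup_left (sum_mem fun i _ => sum_mem fun j hj => ?_)
    rw [show cst (a i j : K) * (x ^ j * bs i) = (a i j : K) • (x ^ j * bs i) from
      (Algebra.smul_def _ _).symm]
    exact Submodule.smul_mem _ _ (Submodule.subset_span ⟨(i, ⟨j, Finset.mem_range.mp hj⟩), rfl⟩)
  obtain ⟨g₀, hg₀⟩ := hS₀ U
  obtain ⟨g₁, hg₁⟩ := hS₁ U'
  have hq : ∀ {z : RatFunc K} {O : K[X]} {γ f : E} {dd : ℕ} {S : ι → Fin dd → E}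
      {g : ι → Fin dd → A}, IntC A z f → f = β + cst (t : K) * γ →
      γ - ∑ i, ∑ j, cst (g i j : K) * S i j ∈ poleSub (E := E) z O →
      (poleSub (E := E) z O).mkQ β =
        -((t : K) • ∑ i, ∑ j, (g i j : K) • (poleSub (E := E) z O).mkQ (S i j)) := by
    intro z O γ f dd S g hfi hfe hγ
    have h2 : (poleSub (E := E) z O).mkQ f = 0 :=
      (Submodule.Quotient.mk_eq_zero _).mpr (mem_poleSub_of_intC O hfi)
    have h3 : (poleSub (E := E) z O).mkQ γ =
        ∑ i, ∑ j, (g i j : K) • (poleSub (E := E) z O).mkQ (S i j) := by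
      have h4 := (Submodule.Quotient.mk_eq_zero _).mpr hγ
      rw [Submodule.Quotient.mk_sub, sub_eq_zero] at h4
      rw [Submodule.mkQ_apply, h4, ← Submodule.mkQ_apply, map_sum]
      refine Finset.sum_congr rfl fun i _ => ?_
      rw [map_sum]
      exact Finset.sum_congr rfl fun j _ =>
        (congrArg _ (Algebra.smul_def (g i j : K) (S i j)).symm).trans (map_smul _ _ _)
    rw [hfe, show cst (t : K) * γ = (t : K) • γ from (Algebra.smul_def _ _).symm, map_add, map_smul,
      h3] at h2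
    exact eq_neg_of_add_eq_zero_left h2
  have e₀' := hq hf₀ hf₀e hg₀
  have e₁' := hq hf₁ hf₁e hg₁
  obtain ⟨a₀, ha₀⟩ := hLinv β hβV
  set u : E := γ₀ - (∑ i, ∑ j, cst (g₀ i j : K) * w₀ (i, j)) -
    ∑ i, ∑ j, cst (g₁ i j : K) * w₁ (i, j)
  have hfa : f₀ - cst a₀ = cst (t : K) * u := by
    have hL : Linv (W₀.mkQ β, W₁.mkQ β) = -(cst (t : K) *
        ((∑ i, ∑ j, cst (g₀ i j : K) * w₀ (i, j)) + ∑ i, ∑ j, cst (g₁ i j : K) * w₁ (i, j))) := by
      rw [e₀', e₁', show ((-((t : K) • ∑ i, ∑ j, (g₀ i j : K) • W₀.mkQ (S₀ i j)),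
          -((t : K) • ∑ i, ∑ j, (g₁ i j : K) • W₁.mkQ (S₁ i j))) : (E ⧸ W₀) × (E ⧸ W₁)) =
          -((t : K) • ((∑ i, ∑ j, (g₀ i j : K) • ((W₀.mkQ (S₀ i j), 0) : (E ⧸ W₀) × (E ⧸ W₁))) +
            ∑ i, ∑ j, (g₁ i j : K) • ((0, W₁.mkQ (S₁ i j)) : (E ⧸ W₀) × (E ⧸ W₁)))) by
        ext <;> simp [Prod.fst_sum, Prod.snd_sum]]
      simp only [map_neg, map_smul, map_add, map_sum, Algebra.smul_def]
      rfl
    rw [hL] at ha₀
    rw [hf₀e]
    linear_combination ha₀
  have hu : IntC A RatFunc.X (cst (C₀ : K) * chartHom (E := E) A RatFunc.X P₀ * u) := by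
    have h' : ∀ (v : A) (w : E), IntC A RatFunc.X (cst (C₀ : K) * chartHom (E := E) A RatFunc.X P₀ * w) →
        IntC A RatFunc.X (cst (C₀ : K) * chartHom (E := E) A RatFunc.X P₀ * (cst (v : K) * w)) :=
      fun v w h => by rw [mul_left_comm]; exact (intC_cst v).mul h
    simp only [u, γ₀, mul_sub, Finset.mul_sum]
    refine ((intC_sum fun i _ => ?_).sub (intC_sum fun i _ => intC_sum fun j _ => ?_)).sub
      (intC_sum fun i _ => intC_sum fun j _ => ?_)
    · rw [mul_left_comm]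
      exact (intC_hom _).mul (hPi (Sum.inl i) (Finset.mem_univ _))
    · exact h' _ _ (hPi (Sum.inr (Sum.inl (i, j))) (Finset.mem_univ _))
    · exact h' _ _ (hPi (Sum.inr (Sum.inr (i, j))) (Finset.mem_univ _))
  refine ⟨a₀, P₀, cst (c' : K) * (cst (C₀ : K) * chartHom (E := E) A RatFunc.X P₀ * u) -
    chartHom (E := E) A RatFunc.X P₀ * c₀, hP₀, ((intC_cst c').mul hu).sub ((intC_hom _).mul hc₀), ?_⟩
  have htc : cst (E := E) (t : K) = cst (δ : K) * (cst (C₀ : K) * cst (c' : K)) := by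
    rw [← map_mul, ← map_mul, ht, pow_succ', hk]
    rfl
  rw [htc] at hfa
  linear_combination chartHom (E := E) A RatFunc.X P₀ * hfa -
    chartHom (E := E) A RatFunc.X P₀ * hcf₀

end FA.Carayol

end
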